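import Mathlib
import Fermat.Agent.LT.H556.A0

/-!
# Row LT, tower T1 (helper54, architect): groups, measures, reduction theory for `GL₂(𝔸_K)`

OFF-MAIN.  Vocabulary = `LT/H556/A0.lean` (origin/helper556@0fa0be5a0, byte-identical copy):
`Adl K`, `G K = GL (Fin 2) (Adl K)`, `infComp`, `finComp`, `IsIntegralAt`, `IsHeckeCosetSystem`, ...
Nothing of A0 is re-defined.  This file contains definitions and `Prop`s only, plus the PROVED
`top`; no `sorry`, no opaque constant, nothing assumed.

## Interface of the tower (what T2, T3/T3', T4, T5, T8, A2 may take as hypotheses)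

`T1Out K` = conjunction of the interface Props below, for ONE number field `K`:

| Prop | content | consumers |
|---|---|---|
| `LocCompC` | `𝔸_K`, `GL₂(𝔸_K)` locally compact, Hausdorff, second countable | all |
| `AdeleLatticeC` | `K` discrete and cocompact in `𝔸_K` | T2, T3, A2 |
| `AddFundDomC` | Borel fundamental domain of `K` in `𝔸_K`, relatively compact, `0 < vol < ∞` | T2 (constant term) |
| `AdNormC` | module `‖·‖_𝔸` on ideles: positive, multiplicative, product formula | T3, T4 |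
| `FujisakiC` | `𝔸¹_K / Kˣ` compact | T3, T4, A2 |
| `DiscreteC` | `GL₂(K)` discrete and closed in `GL₂(𝔸_K)` | T2, T4 |
| `DiscreteModCentreC` | `PGL₂(K)` meets compact sets mod centre in finite sets | T4 |
| `UnimodC` | Haar measures of `GL₂(𝔸_K)` are right invariant | T2, T4 |
| `IwasawaC` | `GL₂(𝔸) = B(𝔸) · K⁰` | T2, T3' |
| `HeightC` | the height `H(g) = ‖a₁/a₂‖` is well defined, left `B(K)Z(𝔸)`-invariant, right `K⁰`-invariant | T2, T3' |
| `ReductionC` | `∃ c > 0 ∀ g ∃ γ ∈ GL₂(K), H(γ g) ≥ c` | T2, A2 |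
| `SiegelSepC` | `γ ∉ B(K) ⇒ H(g) H(γ g) ≤ 1` | T2 |
| `SiegelCompactC` | a Siegel set is `B(K) Z(𝔸) · {diag(s,1)} · compact` | T2, A2 |
| `FundDomC` | strict Borel fundamental domain of `GL₂(K)` in the slab `1 ≤ ‖det g‖ < 2`, finite volume | T2, T4 |
| `HeckeCosetC` | Hecke coset systems exist and are full systems of representatives | T2, T6 |
| `EllipticCompactC` | centraliser of an elliptic `γ ∈ GL₂(K)` is compact modulo `Z(𝔸) G_γ(K)` | T4 |

Sub-leaves: section 3 (`structure Leaves K`, 20 leaves T1.01 - T1.20, each an implication from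
interface Props of this tower); `top : Leaves K → T1Out K` is PROVED in section 4
(axioms: propext, Classical.choice, Quot.sound).
-/

set_option autoImplicit false

open IsDedekindDomain NumberField MeasureTheory
open scoped MatrixGroups

noncomputable section

namespace Fermat.Agent.LT.T1

open Fermat.Agent.LT.H556.A0

variable (K : Type) [Field K] [NumberField K]

/-! ## 1. Vocabulary of the tower -/

/-- The diagonal embedding `GL₂(K) → GL₂(𝔸_K)`; the map of `A0.IsSph0CuspFormFor.left_inv`. -/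
def ratG : GL (Fin 2) K →* G K :=
  Matrix.GeneralLinearGroup.map (algebraMap K (Adl K))

/-- `GL₂(K)` as a subgroup of `GL₂(𝔸_K)`. -/
def Gam : Subgroup (G K) := (ratG K).range

/-- The principal adeles (the subgroup used by `A0.IsCuspidalFn`). -/
def princ : AddSubgroup (Adl K) := (algebraMap K (Adl K)).toAddMonoidHom.range

/-- The principal ideles. -/
def ratUnit : Kˣ →* (Adl K)ˣ := Units.map (algebraMap K (Adl K)).toMonoidHom

/-- The module `‖x‖_𝔸 = ∏_{w ∣ ∞} |x_w|^{[K_w : ℝ]} · ∏_v |x_v|_v` (normalised absolute values).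
Only meaningful for ideles (for a non-unit the `finprod` may be the junk value `1`). -/
def adNorm (x : Adl K) : ℝ :=
  (∏ w : InfinitePlace K, ‖x.1 w‖ ^ w.mult) * ∏ᶠ v : HeightOneSpectrum (𝓞 K), ‖x.2 v‖

/-- `g` is upper triangular. -/
def IsUpper (g : G K) : Prop := (g : Matrix (Fin 2) (Fin 2) (Adl K)) 1 0 = 0

/-- `g = [[1, x], [0, 1]]`. -/
def IsUnip (g : G K) (x : Adl K) : Prop :=
  (g : Matrix (Fin 2) (Fin 2) (Adl K)) = !![1, x; 0, 1]

/-- `g` is a scalar matrix (an element of the centre `Z(𝔸_K)`). -/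
def IsCentral (z : G K) : Prop :=
  ∃ c : Adl K, (z : Matrix (Fin 2) (Fin 2) (Adl K)) = Matrix.diagonal (fun _ => c)

/-- `γ ∈ GL₂(K)` is upper triangular. -/
def IsUpperRat (γ : GL (Fin 2) K) : Prop := (γ : Matrix (Fin 2) (Fin 2) K) 1 0 = 0

/-- The standard compact subgroup `K⁰ = ∏_v GL₂(𝒪_v) × ∏_{w real} SO(2) × ∏_{w complex} U(2)`
(at the infinite places: the groups of `A0.IsArchCompact`). -/
def IsStdCompact (k : G K) : Prop :=
  (∀ v : HeightOneSpectrum (𝓞 K), IsIntegralAt v k ∧ IsIntegralAt v k⁻¹) ∧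
    ∀ w : InfinitePlace K, infComp w k * (infComp w k).conjTranspose = 1 ∧
      (w.IsReal → (infComp w k).det = 1)

/-- `a = diag(s, 1)` at every infinite place and `a = 1` at every finite place (`s > 0` real):
the ray `A_∞⁺` of reduction theory. -/
def IsRay (a : G K) (s : ℝ) : Prop :=
  (∀ v : HeightOneSpectrum (𝓞 K), TrivAtFin v a) ∧
    ∀ w : InfinitePlace K, infComp w a = !![(s : ℂ), 0; 0, 1]

/-- `t` is a height of `g`: `g = b k` with `b` upper triangular, `k ∈ K⁰` and
`t = ‖b₁₁‖_𝔸 / ‖b₂₂‖_𝔸`.  (Unique by `HeightC`, exists by `IwasawaC`.) -/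
def HasHeight (g : G K) (t : ℝ) : Prop :=
  ∃ b k : G K, IsUpper K b ∧ IsStdCompact K k ∧ g = b * k ∧
    t = adNorm K ((b : Matrix (Fin 2) (Fin 2) (Adl K)) 0 0) /
      adNorm K ((b : Matrix (Fin 2) (Fin 2) (Adl K)) 1 1)

/-- The slab `1 ≤ ‖det g‖_𝔸 < 2`: a fundamental domain for the action of the central ray
`{t^{1/2n} : t = 2^m}`; `GL₂(K)`-invariant by the product formula.  Used to state finiteness of
the volume of `GL₂(K) \ GL₂(𝔸_K)¹` without Haar measures on subgroups:
`vol(GL₂(K) \ slab) = log 2 · vol(GL₂(K) \ GL₂(𝔸_K)¹)`. -/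
def slab : Set (G K) :=
  {g | 1 ≤ adNorm K (Matrix.det (g : Matrix (Fin 2) (Fin 2) (Adl K))) ∧
    adNorm K (Matrix.det (g : Matrix (Fin 2) (Fin 2) (Adl K))) < 2}

/-! ## 2. The interface Props -/

/-- **Local compactness.**  Weil, *Basic Number Theory*, IV §1; Cassels–Fröhlich II §14. -/
def LocCompC : Prop :=
  (LocallyCompactSpace (Adl K) ∧ T2Space (Adl K) ∧ SecondCountableTopology (Adl K)) ∧
    LocallyCompactSpace (G K) ∧ T2Space (G K) ∧ SecondCountableTopology (G K)

/-- **`K` is a lattice in `𝔸_K`.**  Weil IV §2 Thm 2; Cassels–Fröhlich II §14. -/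
def AdeleLatticeC : Prop :=
  DiscreteTopology (princ K) ∧ IsClosed (princ K : Set (Adl K)) ∧
    ∃ C : Set (Adl K), IsCompact C ∧ ∀ x : Adl K, ∃ ξ : K, x - algebraMap K (Adl K) ξ ∈ C

/-- **Fundamental domain for `K` in `𝔸_K`** (so that the constant term of `A0.IsCuspidalFn` is an
integral over a set of finite positive measure). -/
def AddFundDomC : Prop :=
  letI : MeasurableSpace (Adl K) := borel (Adl K)
  ∀ μ : Measure (Adl K), μ.IsAddHaarMeasure →
    ∃ D : Set (Adl K), MeasurableSet D ∧ IsAddFundamentalDomain (princ K) D μ ∧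
      IsCompact (closure D) ∧ 0 < μ D ∧ μ D < ⊤

/-- **The module of an idele**: positive, multiplicative, trivial on `Kˣ` (product formula).
Weil IV §4 Thm 5. -/
def AdNormC : Prop :=
  (∀ x : (Adl K)ˣ, 0 < adNorm K (x : Adl K)) ∧
    (∀ x y : (Adl K)ˣ, adNorm K ((x * y : (Adl K)ˣ) : Adl K)
      = adNorm K (x : Adl K) * adNorm K (y : Adl K)) ∧
    (∀ ξ : Kˣ, adNorm K (ratUnit K ξ : Adl K) = 1) ∧
    Continuous fun x : (Adl K)ˣ => adNorm K (x : Adl K)

/-- **Fujisaki's lemma**: `𝔸¹_K / Kˣ` is compact.  Weil IV §4 Thm 6; Cassels–Fröhlich II §16. -/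
def FujisakiC : Prop :=
  ∃ C : Set (Adl K)ˣ, IsCompact C ∧
    ∀ x : (Adl K)ˣ, adNorm K (x : Adl K) = 1 → ∃ ξ : Kˣ, (ratUnit K ξ)⁻¹ * x ∈ C

/-- **`GL₂(K)` is discrete and closed in `GL₂(𝔸_K)`.** -/
def DiscreteC : Prop :=
  DiscreteTopology (Gam K) ∧ IsClosed (Gam K : Set (G K))

/-- **`PGL₂(K)` is discrete in `PGL₂(𝔸_K)`**, in elementwise form: only finitely many classes
`γ Kˣ` have a central multiple in a given compact set.  Gelbart §3; Godement–Jacquet §10. -/
def DiscreteModCentreC : Prop :=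
  ∀ C : Set (G K), IsCompact C → ∃ S : Finset (GL (Fin 2) K), ∀ γ : GL (Fin 2) K,
    (∃ z : G K, IsCentral K z ∧ z * ratG K γ ∈ C) →
      ∃ σ ∈ S, ∃ c : K, (γ : Matrix (Fin 2) (Fin 2) K) = c • (σ : Matrix (Fin 2) (Fin 2) K)

/-- **Unimodularity of `GL₂(𝔸_K)`.**  Weil, *Adeles and algebraic groups* §2.4. -/
def UnimodC : Prop :=
  letI : MeasurableSpace (G K) := borel (G K)
  ∀ μ : Measure (G K), μ.IsHaarMeasure → μ.IsMulRightInvariant

/-- **Iwasawa decomposition** `GL₂(𝔸_K) = B(𝔸_K) · K⁰`.  Gelbart §3.A; Bump Prop. 3.3.1 (local),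
Godement–Jacquet §10. -/
def IwasawaC : Prop :=
  ∀ g : G K, ∃ b k : G K, IsUpper K b ∧ IsStdCompact K k ∧ g = b * k

/-- **The height is well defined**, left invariant under `B(K) Z(𝔸_K)`, right invariant under
`K⁰`. -/
def HeightC : Prop :=
  (∀ (g : G K) (t t' : ℝ), HasHeight K g t → HasHeight K g t' → t = t') ∧
    (∀ (β : GL (Fin 2) K), IsUpperRat K β → ∀ (g : G K) (t : ℝ),
      HasHeight K g t → HasHeight K (ratG K β * g) t) ∧
    (∀ z : G K, IsCentral K z → ∀ (g : G K) (t : ℝ), HasHeight K g t → HasHeight K (z * g) t) ∧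
    ∀ k : G K, IsStdCompact K k → ∀ (g : G K) (t : ℝ), HasHeight K g t → HasHeight K (g * k) t

/-- **Reduction theory, covering**: `GL₂(𝔸_K) = GL₂(K) · 𝔖_c` for the Siegel set
`𝔖_c = {H ≥ c}`.  Godement, *Domaines fondamentaux des groupes arithmétiques* (Sém. Bourbaki 257)
§§7-9; Borel, *Reduction theory*; Gelbart §3. -/
def ReductionC : Prop :=
  ∃ c : ℝ, 0 < c ∧ ∀ g : G K, ∃ (γ : GL (Fin 2) K) (t : ℝ),
    HasHeight K (ratG K γ * g) t ∧ c ≤ t

/-- **Reduction theory, separation**: `H(g) H(γ g) ≤ 1` for `γ ∈ GL₂(K)` not upper triangular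
(Hadamard's inequality at every place and the product formula). -/
def SiegelSepC : Prop :=
  ∀ γ : GL (Fin 2) K, ¬ IsUpperRat K γ → ∀ (g : G K) (t t' : ℝ),
    HasHeight K g t → HasHeight K (ratG K γ * g) t' → t * t' ≤ 1

/-- **Siegel sets are compact modulo `B(K) Z(𝔸_K)` and the ray**: for `c > 0` there are a compact
`Ω` and constants `0 < m ≤ M` such that every `g` of height `t ≥ c` is `β z a ω` with `β ∈ B(K)`,
`z` central, `a = diag(s,1)` in the ray, `ω ∈ Ω` and `m t ≤ s^{[K:ℚ]} ≤ M t`. -/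
def SiegelCompactC : Prop :=
  ∀ c : ℝ, 0 < c → ∃ (Ω : Set (G K)) (m M : ℝ), IsCompact Ω ∧ 0 < m ∧ m ≤ M ∧
    ∀ (g : G K) (t : ℝ), HasHeight K g t → c ≤ t →
      ∃ (β : GL (Fin 2) K) (z a ω : G K) (s : ℝ), IsUpperRat K β ∧ IsCentral K z ∧ 0 < s ∧
        IsRay K a s ∧ ω ∈ Ω ∧ g = ratG K β * z * a * ω ∧
        m * t ≤ s ^ Module.finrank ℚ K ∧ s ^ Module.finrank ℚ K ≤ M * t

/-- **Finite volume**: the slab `1 ≤ ‖det‖ < 2` has a strict Borel fundamental domain for
`GL₂(K)` of finite Haar measure, i.e. `vol(GL₂(K) \ GL₂(𝔸_K)¹) < ∞`.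
Godement loc. cit. §10; Borel–Harish-Chandra; Gelbart §3. -/
def FundDomC : Prop :=
  letI : MeasurableSpace (G K) := borel (G K)
  ∀ μ : Measure (G K), μ.IsHaarMeasure →
    ∃ F : Set (G K), MeasurableSet F ∧ F ⊆ slab K ∧
      (∀ g ∈ slab K, ∃! γ : GL (Fin 2) K, ratG K γ * g ∈ F) ∧ μ F < ⊤

/-- **Hecke coset systems** (`A0.IsHeckeCosetSystem`) exist at every finite place, any such system
is a full system of representatives of the integral matrices of determinant a uniformiser modulo
`GL₂(𝒪_v)` on the right, and scalar uniformisers exist.  Bump §4.6; Gelbart §3.B. -/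
def HeckeCosetC : Prop :=
  ∀ v : HeightOneSpectrum (𝓞 K),
    (∃ H : Finset (G K), IsHeckeCosetSystem v H) ∧
    (∀ H : Finset (G K), IsHeckeCosetSystem v H → ∀ g : G K, IsLocalAtFin v g →
      IsIntegralAt v g → Valued.v (finComp v g).det = WithZero.exp (-1 : ℤ) →
      ∃ h ∈ H, IsIntegralAt v (h⁻¹ * g)) ∧
    ∃ z : G K, IsScalarUniformizerAt v z

/-- **Elliptic tori are compact modulo the centre**: for `γ ∈ GL₂(K)` with irreducible
characteristic polynomial, the centraliser of `γ` in `GL₂(𝔸_K)` is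
`Z(𝔸_K) · G_γ(K) · (compact)`.  (`G_γ = Res_{L/K} 𝔾_m`, `L = K[γ]`; Fujisaki for `L`.)
Gelbart–Jacquet, *Forms of GL(2) from the analytic point of view* §1. -/
def EllipticCompactC : Prop :=
  ∀ γ : GL (Fin 2) K, Irreducible (γ : Matrix (Fin 2) (Fin 2) K).charpoly →
    ∃ C : Set (G K), IsCompact C ∧ ∀ g : G K, g * ratG K γ = ratG K γ * g →
      ∃ (z : G K) (δ : GL (Fin 2) K) (c : G K), IsCentral K z ∧ δ * γ = γ * δ ∧ c ∈ C ∧
        g = z * ratG K δ * c

/-- THE OUTPUT OF TOWER T1 for the number field `K`. -/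
structure T1Out : Prop where
  locComp : LocCompC K
  adeleLattice : AdeleLatticeC K
  addFundDom : AddFundDomC K
  adNorm : AdNormC K
  fujisaki : FujisakiC K
  discrete : DiscreteC K
  discreteModCentre : DiscreteModCentreC K
  unimod : UnimodC K
  iwasawa : IwasawaC K
  height : HeightC K
  reduction : ReductionC K
  siegelSep : SiegelSepC K
  siegelCompact : SiegelCompactC K
  fundDom : FundDomC K
  heckeCoset : HeckeCosetC K
  ellipticCompact : EllipticCompactC K

/-! ## 3. The sub-leaves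

Every leaf is hypothesis-parametrised: `Leaf… K` is an implication whose premises are interface
Props of THIS tower (no other tower is needed by T1).  Size estimates (lines of Lean over Mathlib)
in the doc-comments. -/

/-- T1.01 (≈ 400 lines; helper11 `LT/H11/LC.lean`).  Finite residue fields, `𝒪_v` compact,
`K_v` locally compact, restricted product, units of the matrix ring.  Weil BNT I §3, IV §1. -/
def LeafLocComp : Prop := LocCompC K

/-- T1.02 (DONE by helper767, `LT/H767/AdeleDiscrete.lean`, 94 lines; adapter to `princ K`).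
Cassels–Fröhlich II §14. -/
def LeafAdeleDiscrete : Prop := DiscreteTopology (princ K)

/-- T1.03 (≈ 800 lines; claimed by helper767).  `𝔸_K = K + (compact)`: strong approximation at
the finite places (`𝔸_f = K + ∏ 𝒪_v`, CRT) and `K_∞ / 𝒪_K` compact (Minkowski lattice in Mathlib:
`NumberField.mixedEmbedding`).  Cassels–Fröhlich II §14 Thm. -/
def LeafAdeleCocompact : Prop :=
  LocCompC K →
    ∃ C : Set (Adl K), IsCompact C ∧ ∀ x : Adl K, ∃ ξ : K, x - algebraMap K (Adl K) ξ ∈ C

/-- T1.04 (≈ 500 lines).  A countable discrete subgroup of a second countable locally compact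
group has a Borel fundamental domain inside any compact set whose translates cover; applied to
`K ⊂ 𝔸_K`.  Bourbaki, Intégration VII §2 no. 10, Exercice 12; Weil BNT II §4 Lemma 1. -/
def LeafAddFundDom : Prop := LocCompC K → AdeleLatticeC K → AddFundDomC K

/-- T1.05 (≈ 600 lines).  Finite support of `v ↦ ‖x_v‖` on ideles, multiplicativity, product
formula (`NumberField.prod_abs_eq_one` in Mathlib), continuity on the idele group.
Weil BNT IV §4 Thm 5. -/
def LeafAdNorm : Prop := AdNormC K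

/-- T1.06 (≈ 2500 lines).  Fujisaki's lemma by the adelic Minkowski argument
(Blichfeldt for the lattice `K ⊂ 𝔸_K` and the scaling `μ(xX) = ‖x‖ μ(X)`).
Weil BNT IV §4 Thm 6; Cassels–Fröhlich II §16. -/
def LeafFujisaki : Prop := LocCompC K → AdeleLatticeC K → AddFundDomC K → AdNormC K → FujisakiC K

/-- T1.07 (≈ 200 lines).  `γ` close to `1` in `GL₂(𝔸_K)` has `γ - 1` close to `0` entrywise;
closedness = discrete subgroups of Hausdorff groups are closed. -/
def LeafDiscrete : Prop := LocCompC K → AdeleLatticeC K → DiscreteC K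

/-- T1.08 (≈ 800 lines).  `Ad : GL₂ → GL(M₂)`, `Ad(γ)` rational, `M₂(K)` discrete in
`M₂(𝔸_K)`; kernel of `Ad` = centre.  Godement–Jacquet §10. -/
def LeafDiscreteModCentre : Prop := LocCompC K → AdeleLatticeC K → DiscreteModCentreC K

/-- T1.09 (≈ 800 lines).  The modular character (`MeasureTheory.Measure.modularCharacter`) is
trivial on the centre and on unipotent elements (commutators `[diag(2,1), n(x)] = n(x)`, `3`-free
form: `[diag(a,1), n(x)] = n((a-1)x)` with `a = 2`), on `K⁰` (compact) and on the torus (its square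
is a commutator times a central element); these generate.  Weil, *Adeles and algebraic groups*
§2.4. -/
def LeafUnimod : Prop := LocCompC K → UnimodC K

/-- T1.10 (≈ 250 lines).  Local Iwasawa decomposition at a finite place:
`GL₂(K_v) = B(K_v) GL₂(𝒪_v)`.  Bump Prop. 4.5.2. -/
def LeafIwasawaFin : Prop :=
  ∀ (v : HeightOneSpectrum (𝓞 K)) (g : GL (Fin 2) (v.adicCompletion K)),
    ∃ b k : GL (Fin 2) (v.adicCompletion K),
      (b : Matrix (Fin 2) (Fin 2) (v.adicCompletion K)) 1 0 = 0 ∧
      (∀ i j, (k : Matrix (Fin 2) (Fin 2) (v.adicCompletion K)) i j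
        ∈ v.adicCompletionIntegers K) ∧
      (∀ i j, ((k⁻¹ : GL (Fin 2) (v.adicCompletion K)) :
        Matrix (Fin 2) (Fin 2) (v.adicCompletion K)) i j ∈ v.adicCompletionIntegers K) ∧
      g = b * k

/-- T1.11 (≈ 300 lines).  Archimedean Iwasawa decomposition (Gram–Schmidt on the rows):
`GL₂(ℂ) = B(ℂ) U(2)`, and for a real matrix `b`, `k` are real with `k ∈ SO(2)`.
Bump §2.1 (Iwasawa decomposition of `GL(2,ℝ)`); Gelbart §3.A. -/
def LeafIwasawaInf : Prop :=
  ∀ g : GL (Fin 2) ℂ, ∃ b k : GL (Fin 2) ℂ,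
    (b : Matrix (Fin 2) (Fin 2) ℂ) 1 0 = 0 ∧
    (k : Matrix (Fin 2) (Fin 2) ℂ) * (k : Matrix (Fin 2) (Fin 2) ℂ).conjTranspose = 1 ∧
    g = b * k ∧
    ((∀ i j, ((g : Matrix (Fin 2) (Fin 2) ℂ) i j).im = 0) →
      (∀ i j, ((b : Matrix (Fin 2) (Fin 2) ℂ) i j).im = 0) ∧
      (∀ i j, ((k : Matrix (Fin 2) (Fin 2) ℂ) i j).im = 0) ∧
      (k : Matrix (Fin 2) (Fin 2) ℂ).det = 1)

/-- T1.12 (≈ 800 lines).  Gluing: local decompositions at all places, `b_v = 1` at the places
where `g_v ∈ GL₂(𝒪_v)`, give an adelic decomposition (construction of elements of the restricted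
product from local components; surjectivity of `extensionEmbedding` onto `ℝ` resp. `ℂ`). -/
def LeafIwasawaGlue : Prop := LeafIwasawaFin K → LeafIwasawaInf → IwasawaC K

/-- T1.13 (≈ 700 lines).  `B(𝔸) ∩ K⁰` has diagonal entries of absolute value `1` at every place;
product formula for `β ∈ B(K)`. -/
def LeafHeight : Prop := AdNormC K → HeightC K

/-- T1.14 (≈ 3000 lines).  Adelic Minkowski: the lattice `K² g ⊂ 𝔸_K²` has a nonzero vector
`(c,d) g` with `‖(c,d) g‖² ≤ C ‖det g‖` (Blichfeldt for `K² ⊂ 𝔸_K²`, scaling of the Haar measure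
of `𝔸_K²` by `‖det g‖`); complete `(c,d)` to `γ ∈ GL₂(K)` and use
`H(γ g) = ‖det g‖ / ‖(c,d) g‖²`.  Godement, Sém. Bourbaki 257 §8; Weil BNT IV §4 Lemma 1. -/
def LeafReduction : Prop :=
  LocCompC K → AdeleLatticeC K → AddFundDomC K → AdNormC K → IwasawaC K → HeightC K →
    ReductionC K

/-- T1.15 (≈ 900 lines).  `H(g) = ‖det g‖ / ‖(0,1) g‖²`, Hadamard's inequality
`|det(v,w)|_v ≤ ‖v‖_v ‖w‖_v` at every place, product formula for the entry `c ≠ 0` of `γ`.
Godement, Sém. Bourbaki 257 §7. -/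
def LeafSiegelSep : Prop := AdNormC K → IwasawaC K → HeightC K → SiegelSepC K

/-- T1.16 (≈ 900 lines).  `𝔸ˣ = Kˣ · ray · (compact)` (Fujisaki), `𝔸 = K + (compact)`, Iwasawa;
conjugation by `diag(s,1)`, `s ≥ s₀`, contracts the unipotent radical at the infinite places.
Godement loc. cit. §9; Gelbart §3. -/
def LeafSiegelCompact : Prop :=
  LocCompC K → AdeleLatticeC K → AdNormC K → FujisakiC K → IwasawaC K → HeightC K →
    SiegelCompactC K

/-- **Finite volume of Siegel sets in the slab** (auxiliary Prop of the tower): for every `c > 0`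
there is a Borel set `S` of finite Haar measure meeting the `B(K)`-orbit of every `g` in the slab
of height `≥ c`. -/
def SiegelVolC : Prop :=
  letI : MeasurableSpace (G K) := borel (G K)
  ∀ μ : Measure (G K), μ.IsHaarMeasure → ∀ c : ℝ, 0 < c →
    ∃ S : Set (G K), MeasurableSet S ∧ μ S < ⊤ ∧
      ∀ g ∈ slab K, ∀ t : ℝ, HasHeight K g t → c ≤ t →
        ∃ β : GL (Fin 2) K, IsUpperRat K β ∧ ratG K β * g ∈ S

/-- T1.17 (≈ 3000 lines).  Haar measure of `GL₂(𝔸)` in Iwasawa coordinates
`dg = ‖a₁/a₂‖⁻¹ dn da dk`, and `∫_{s ≥ s₀} s^{-n} dˣs < ∞`.  Godement loc. cit. §10;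
Gelbart §3 (3.10); Bump §3.3 (over `ℚ`). -/
def LeafSiegelVol : Prop :=
  LocCompC K → UnimodC K → AdeleLatticeC K → AddFundDomC K → AdNormC K → IwasawaC K →
    HeightC K → SiegelCompactC K → SiegelVolC K

/-- T1.18 (≈ 600 lines).  Strict Borel fundamental domain of the countable discrete group
`GL₂(K)` in the invariant Borel set `slab K`; its measure is bounded by the measure of any Borel
set meeting all orbits (left invariance of `μ`).  Bourbaki, Intégration VII §2 no. 10. -/
def LeafFundDom : Prop :=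
  LocCompC K → DiscreteC K → AdNormC K → HeightC K → ReductionC K → SiegelVolC K → FundDomC K

/-- T1.19 (≈ 1200 lines).  The `q_v + 1` cosets `[[ϖ, r],[0,1]]` (`r` mod `ϖ`), `[[1,0],[0,ϖ]]`;
elementary divisors over the discrete valuation ring `𝒪_v`; residue field of cardinality
`Ideal.absNorm v.asIdeal`; local elements as adeles.  Bump Prop. 4.6.4. -/
def LeafHeckeCoset : Prop := HeckeCosetC K

/-- T1.20 (≈ 3000 lines).  Centraliser of `γ` in `M₂(𝔸_K)` is `𝔸_K ⊗_K K[γ]`; Fujisaki's argument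
for the lattice `K[γ] ⊂ 𝔸_K[γ]` (rank 2 over `𝔸_K`), module = `‖det‖`.  Weil BNT IV §3 Thm 4
(`𝔸_K ⊗ L`), §4 Thm 6; Gelbart–Jacquet §1. -/
def LeafEllipticCompact : Prop :=
  LocCompC K → AdeleLatticeC K → AddFundDomC K → AdNormC K → EllipticCompactC K

/-- ALL SUB-LEAVES of tower T1 for the number field `K`. -/
structure Leaves : Prop where
  locComp : LeafLocComp K
  adeleDiscrete : LeafAdeleDiscrete K
  adeleCocompact : LeafAdeleCocompact K
  addFundDom : LeafAddFundDom K
  adNorm : LeafAdNorm K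
  fujisaki : LeafFujisaki K
  discrete : LeafDiscrete K
  discreteModCentre : LeafDiscreteModCentre K
  unimod : LeafUnimod K
  iwasawaFin : LeafIwasawaFin K
  iwasawaInf : LeafIwasawaInf
  iwasawaGlue : LeafIwasawaGlue K
  height : LeafHeight K
  reduction : LeafReduction K
  siegelSep : LeafSiegelSep K
  siegelCompact : LeafSiegelCompact K
  siegelVol : LeafSiegelVol K
  fundDom : LeafFundDom K
  heckeCoset : LeafHeckeCoset K
  ellipticCompact : LeafEllipticCompact K

/-! ## 4. The top of the tower (PROVED) -/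

/-- Discrete subgroups of the Hausdorff group `𝔸_K` are closed: `AdeleLatticeC` from the leaves
T1.01, T1.02, T1.03. -/
theorem adeleLattice_of_leaves (h1 : LeafLocComp K) (h2 : LeafAdeleDiscrete K)
    (h3 : LeafAdeleCocompact K) : AdeleLatticeC K := by
  have : T2Space (Adl K) := h1.1.2.1
  have : DiscreteTopology (princ K) := h2
  exact ⟨h2, AddSubgroup.isClosed_of_discrete, h3 h1⟩

/-- THE TOP OF TOWER T1: the sub-leaves give the output of the tower. -/
theorem top (L : Leaves K) : T1Out K := by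
  have hLC : LocCompC K := L.locComp
  have hAL : AdeleLatticeC K := adeleLattice_of_leaves K L.locComp L.adeleDiscrete L.adeleCocompact
  have hFD : AddFundDomC K := L.addFundDom hLC hAL
  have hN : AdNormC K := L.adNorm
  have hFu : FujisakiC K := L.fujisaki hLC hAL hFD hN
  have hD : DiscreteC K := L.discrete hLC hAL
  have hU : UnimodC K := L.unimod hLC
  have hI : IwasawaC K := L.iwasawaGlue L.iwasawaFin L.iwasawaInf
  have hH : HeightC K := L.height hN
  have hR : ReductionC K := L.reduction hLC hAL hFD hN hI hH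
  have hSC : SiegelCompactC K := L.siegelCompact hLC hAL hN hFu hI hH
  have hSV : SiegelVolC K := L.siegelVol hLC hU hAL hFD hN hI hH hSC
  exact
    { locComp := hLC
      adeleLattice := hAL
      addFundDom := hFD
      adNorm := hN
      fujisaki := hFu
      discrete := hD
      discreteModCentre := L.discreteModCentre hLC hAL
      unimod := hU
      iwasawa := hI
      height := hH
      reduction := hR
      siegelSep := L.siegelSep hN hI hH
      siegelCompact := hSC
      fundDom := L.fundDom hLC hD hN hH hR hSV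
      heckeCoset := L.heckeCoset
      ellipticCompact := L.ellipticCompact hLC hAL hFD hN }

end Fermat.Agent.LT.T1

end
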