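import Mathlib
import Fermat.Agent.LT.T1.Spec
import Fermat.Agent.LT.H767.AdeleDiscrete
import Fermat.Agent.LT.T1.H11.LocComp
import Fermat.Agent.LT.T1.H132.DiscreteC
import Fermat.Agent.LT.T1.H793.Leaves
import Fermat.Agent.LT.T1.H849.UnimodTop
import Fermat.Agent.LT.T1.H309.AdNorm
import Fermat.Agent.LT.T1.H62.DiscModCentre
import Fermat.Agent.LT.T1.H767.AdeleLattice
import Fermat.Agent.LT.T1.H848.AddFundDom
import Fermat.Agent.LT.H129.T1Leaves
import Fermat.Agent.LT.T1.H558.FundDom
import Fermat.Agent.LT.T1.H919.SiegelCompact
import Fermat.Agent.LT.T1.H54.SiegelVol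
import Fermat.Agent.LT.T1.H629.Fujisaki
import Fermat.Agent.LT.T1.H729.Red.Closed
import Fermat.Agent.LT.T1.H619.EllipticCompact

/-!
# Row LT, tower T1 (helper54, architect): INTEGRATION of the closed leaves

OFF-MAIN.  Imports byte-identical copies of the volunteers' files and discharges the closed leaves
of `Leaves K` (`LT/T1/Spec.lean`, v1 sha256 e8ae48d6010e):

| leaf | closed by |
|---|---|
| T1.01 `LeafLocComp` | helper11 `locCompC_h11` |
| T1.02 `LeafAdeleDiscrete` | helper767 `discreteTopology_principal` + adapter below |
| T1.03 `LeafAdeleCocompact` | helper767 `leafAdeleCocompact767` |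
| T1.04 `LeafAddFundDom` | helper848 `leafAddFundDom848` |
| T1.05 `LeafAdNorm` | helper309 `leafAdNorm309` (second proof: helper729 `adNormC729`) |
| T1.06 `LeafFujisaki` | helper629 `leafFujisaki629` |
| T1.07 `LeafDiscrete` | helper132 `discreteC_132` |
| T1.08 `LeafDiscreteModCentre` | helper62 `leafDiscreteModCentre62` |
| T1.09 `LeafUnimod` | helper849 `adelicGL2_haar_isMulRightInvariant849` + adapter below |
| T1.10 - T1.12 (Iwasawa) | helper793 `leafIwasawaFin793`, `leafIwasawaInf793`, `leafIwasawaGlue793` (second proof: helper729) |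
| T1.13 `LeafHeight` | helper793 `leafHeight793` (second proof: helper429) |
| T1.14 `LeafReduction` | helper729 `leafReduction729` (on the Haar scaling of helper671 `haarScaleC671`) |
| T1.15 `LeafSiegelSep` | helper793 `leafSiegelSep793` |
| T1.16 `LeafSiegelCompact` | helper919 `leafSiegelCompact919` |
| T1.17 `LeafSiegelVol` | helper54 `leafSiegelVol_of_fujisaki54` (dyadic tiling; needs the Fujisaki leaf T1.06) |
| T1.18 `LeafFundDom` | helper558 `leafFundDom558` |
| T1.19 `LeafHeckeCoset` | helper129 `leafHeckeCoset129` |
| T1.20 `LeafEllipticCompact` | helper619 `leafEllipticCompact619` |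

ALL 20 LEAVES ARE CLOSED: `t1Out K : T1Out K` is UNCONDITIONAL, for every number field `K`
(axioms: propext, Classical.choice, Quot.sound).  `top_of_open : Open K → T1Out K` is kept for
the record (`Open K` = the three leaves that were closed last).
-/

set_option autoImplicit false

open IsDedekindDomain NumberField MeasureTheory
open scoped MatrixGroups

noncomputable section

namespace Fermat.Agent.LT.T1

open Fermat.Agent.LT.H556.A0

variable (K : Type) [Field K] [NumberField K]

/-- The subgroup `princ K` of the Spec is Mathlib's `AdeleRing.principalSubgroup`. -/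
theorem princ_eq_principalSubgroup : princ K = AdeleRing.principalSubgroup (𝓞 K) K := by
  ext x
  simp [princ, AdeleRing.principalSubgroup]

/-- T1.02 closed (helper767). -/
theorem leafAdeleDiscrete_closed : LeafAdeleDiscrete K := by
  unfold LeafAdeleDiscrete
  rw [princ_eq_principalSubgroup]
  exact Fermat.Agent.LT.H767.discreteTopology_principal K

/-- `UnimodC` closed (helper849). -/
theorem unimodC_closed : UnimodC K := by
  letI : MeasurableSpace (G K) := borel (G K)
  have : BorelSpace (G K) := ⟨rfl⟩
  intro μ hμ
  have := hμ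
  exact Fermat.Agent.LT.T1.H849.adelicGL2_haar_isMulRightInvariant849 K μ

/-- THE OPEN PART of tower T1: the leaves still to be proved. -/
structure Open : Prop where
  fujisaki : LeafFujisaki K
  reduction : LeafReduction K
  ellipticCompact : LeafEllipticCompact K

/-- The closed leaves are discharged. -/
theorem leaves_of_open (O : Open K) : Leaves K where
  locComp := Fermat.Agent.LT.T1.H11.locCompC_h11 K
  adeleDiscrete := leafAdeleDiscrete_closed K
  adeleCocompact := Fermat.Agent.LT.H767.leafAdeleCocompact767 K
  addFundDom := Fermat.Agent.LT.T1.H848.leafAddFundDom848 K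
  adNorm := Fermat.Agent.LT.T1.H309.leafAdNorm309 K
  fujisaki := O.fujisaki
  discrete := fun _ _ => Fermat.Agent.LT.T1.H132.discreteC_132 K
  discreteModCentre := Fermat.Agent.LT.T1.H62.leafDiscreteModCentre62 K
  unimod := fun _ => unimodC_closed K
  iwasawaFin := Fermat.Agent.LT.T1.H793.leafIwasawaFin793 K
  iwasawaInf := Fermat.Agent.LT.T1.H793.leafIwasawaInf793
  iwasawaGlue := Fermat.Agent.LT.T1.H793.leafIwasawaGlue793 K
  height := Fermat.Agent.LT.T1.H793.leafHeight793 K
  reduction := O.reduction
  siegelSep := Fermat.Agent.LT.T1.H793.leafSiegelSep793 K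
  siegelCompact := Fermat.Agent.LT.T1.H919.leafSiegelCompact919 K
  siegelVol := Fermat.Agent.LT.T1.H54.leafSiegelVol_of_fujisaki54 K O.fujisaki
  fundDom := Fermat.Agent.LT.T1.H558.leafFundDom558 K
  heckeCoset := Fermat.Agent.LT.H129.leafHeckeCoset129 K
  ellipticCompact := O.ellipticCompact

/-- STATE OF THE TOWER: the open leaves give the output of T1. -/
theorem top_of_open (O : Open K) : T1Out K := top K (leaves_of_open K O)

/-- The three leaves that were closed last. -/
theorem open_closed : Open K where
  fujisaki := Fermat.Agent.LT.T1.H629.leafFujisaki629 K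
  reduction := Fermat.Agent.LT.T1.H729.leafReduction729 K
  ellipticCompact := Fermat.Agent.LT.T1.H619.leafEllipticCompact619 K

/-- ALL LEAVES of tower T1. -/
theorem leaves : Leaves K := leaves_of_open K (open_closed K)

/-- **THE OUTPUT OF TOWER T1, UNCONDITIONAL**, for every number field `K`. -/
theorem t1Out : T1Out K := top K (leaves K)

end Fermat.Agent.LT.T1

end
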